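/-
Programme T1B (S44), brick N-FACTS (helper23): the PROVIDER of `RedN3.NodalGood` (helper3's F4 RED-N
interface) for the nodal two-chart model `ES.N34.NodalCore13.NodalTwoChartModel`.

* `nodalChart M : TwoChart R ↥B0 ↥B1 ↥(B0 ⊔ B1)` : the two-chart ring of the nodal model
  (coordinates `t`, `t⁻¹`; twin of `T1.Coh60.modelChart` for the smooth model);
* `vertIdeal π B O hle : Ideal ↥B` : the vertical prime `B ∩ π O` of a chart `B ⊆ O`
  (`mem_vertIdeal`, `vertIdeal_isPrime`);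
* `nodalGood M : NodalGood (nodalChart M) π (Fin 2)` with `P_j i = B_j ∩ π O_i`,
  `Q i = (B0 ⊔ B1) ∩ π O_i` (`mem_P0`, `mem_P1`, `mem_Q`);
* `NodalGood.of_equiv` : transport of `NodalGood` along isomorphisms of two-chart rings (to reach
  `c0.baseChange O` from the model over `O`).

The special fibre is reduced with the two components `O1`, `O2`: `inf0`/`inf1` are exactly the
saturation fields `sat0`/`sat1` of the model.
-/
import Mathlib
import Fermat.Agent.ES.N34.NodalCore13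
import Fermat.Agent.T1.Coh60.ModelLine
import Fermat.Agent.T1B.RedN3.Iface

set_option autoImplicit false
set_option linter.unusedSectionVars false
set_option linter.style.haveILetI false

universe u

namespace Fermat.Agent.T1B.NodalFacts23

open Fermat.Agent.ES.N34.NodalCore13 Fermat.Agent.Jac Fermat.Agent.T1B.RedN3
open Fermat.Agent.T1.ModelCoh30 (ρ0 ρ1 away_of_le)
open Fermat.Agent.T1.Coh60 (algebra0 algebra1 isScalarTower0 isScalarTower1)

/-! ### The vertical prime of a chart along a valuation ring with uniformiser `π` -/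

section Vert

variable {R F : Type*} [CommRing R] [Field F] [Algebra R F]

/-- `B ∩ π O` for a chart `B ⊆ O`. -/
def vertIdeal (π : R) (B : Subalgebra R F) (O : ValuationSubring F) (hle : ∀ x ∈ B, x ∈ O) :
    Ideal ↥B where
  carrier := {x | ∃ c ∈ O, (x : F) = algebraMap R F π * c}
  zero_mem' := ⟨0, O.zero_mem, by simp⟩
  add_mem' := by
    rintro x y ⟨c, hc, hx⟩ ⟨d, hd, hy⟩
    exact ⟨c + d, O.add_mem _ _ hc hd, by
      rw [Subalgebra.coe_add, hx, hy, mul_add]⟩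
  smul_mem' := by
    rintro b x ⟨c, hc, hx⟩
    refine ⟨(b : F) * c, O.mul_mem _ _ (hle _ b.2) hc, ?_⟩
    rw [smul_eq_mul, Subalgebra.coe_mul, hx]
    ring

theorem mem_vertIdeal {π : R} {B : Subalgebra R F} {O : ValuationSubring F}
    {hle : ∀ x ∈ B, x ∈ O} {x : ↥B} :
    x ∈ vertIdeal π B O hle ↔ ∃ c ∈ O, (x : F) = algebraMap R F π * c := Iff.rfl

theorem algebraMap_mem_vertIdeal {π : R} {B : Subalgebra R F} {O : ValuationSubring F}
    {hle : ∀ x ∈ B, x ∈ O} : algebraMap R ↥B π ∈ vertIdeal π B O hle :=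
  ⟨1, O.one_mem, by rw [mul_one]; rfl⟩

/-- `π O` is a prime ideal of `O` (uniformiser), in elementary form. -/
theorem mem_piO_of_mul {π : R} {O : ValuationSubring F} (hπ : algebraMap R F π ≠ 0)
    (hnu : (algebraMap R F π)⁻¹ ∉ O)
    (hunif : ∀ x ∈ O, x⁻¹ ∉ O → ∃ c ∈ O, x = algebraMap R F π * c)
    {x y z : F} (hx : x ∈ O) (hy : y ∈ O) (hz : z ∈ O) (h : x * y = algebraMap R F π * z) :
    (∃ c ∈ O, x = algebraMap R F π * c) ∨ ∃ c ∈ O, y = algebraMap R F π * c := by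
  by_contra hcon
  rw [not_or] at hcon
  have hx' : x⁻¹ ∈ O := by
    by_contra hx'
    exact hcon.1 (hunif x hx hx')
  have hy' : y⁻¹ ∈ O := by
    by_contra hy'
    exact hcon.2 (hunif y hy hy')
  have hx0 : x ≠ 0 := by
    rintro rfl
    exact hcon.1 ⟨0, O.zero_mem, by rw [mul_zero]⟩
  have hy0 : y ≠ 0 := by
    rintro rfl
    exact hcon.2 ⟨0, O.zero_mem, by rw [mul_zero]⟩
  apply hnu
  have h1 : (algebraMap R F π)⁻¹ = z * (x⁻¹ * y⁻¹) := by
    rw [eq_comm, ← mul_inv, ← div_eq_mul_inv, div_eq_iff (mul_ne_zero hx0 hy0), h,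
      inv_mul_cancel_left₀ hπ]
  rw [h1]
  exact O.mul_mem _ _ hz (O.mul_mem _ _ hx' hy')

theorem vertIdeal_isPrime {π : R} {B : Subalgebra R F} {O : ValuationSubring F}
    (hle : ∀ x ∈ B, x ∈ O) (hπ : algebraMap R F π ≠ 0) (hnu : (algebraMap R F π)⁻¹ ∉ O)
    (hunif : ∀ x ∈ O, x⁻¹ ∉ O → ∃ c ∈ O, x = algebraMap R F π * c) :
    (vertIdeal π B O hle).IsPrime := by
  refine ⟨?_, ?_⟩
  · intro htop
    have h1 : (1 : ↥B) ∈ vertIdeal π B O hle := by rw [htop]; exact Submodule.mem_top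
    obtain ⟨c, hc, h⟩ := h1
    apply hnu
    have hpc : algebraMap R F π * c = 1 := by rw [← h]; rfl
    rw [inv_eq_of_mul_eq_one_right hpc]
    exact hc
  · intro x y hxy
    obtain ⟨z, hz, h⟩ := hxy
    rw [Subalgebra.coe_mul] at h
    rcases mem_piO_of_mul hπ hnu hunif (hle _ x.2) (hle _ y.2) hz h with h' | h'
    · exact Or.inl h'
    · exact Or.inr h'

end Vert

/-! ### The two-chart ring of the nodal model -/

section Chart

variable {R F : Type u} [CommRing R] [Field F] [Algebra R F]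
variable {π : R} {t : F} {B0 B1 : Subalgebra R F} {O1 O2 : ValuationSubring F}

theorem tinv_pow_mul_t_pow (M : NodalTwoChartModel R F π t B0 B1 O1 O2) (k : ℕ) :
    t⁻¹ ^ k * t ^ k = 1 := by
  rw [← mul_pow, inv_mul_cancel₀ M.t_ne, one_pow]

theorem mem_sup_iff0 (M : NodalTwoChartModel R F π t B0 B1 O1 O2) {x : F} :
    x ∈ B0 ⊔ B1 ↔ ∃ k : ℕ, t ^ k * x ∈ B0 := by
  constructor
  · intro hx
    have hle : B0 ⊔ B1 ≤ Fermat.Agent.T1.ModelCoh30.awaySub t B0 M.t_mem := by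
      apply sup_le
      · intro y hy
        exact ⟨0, by simpa using hy⟩
      · intro y hy
        exact M.ov0 y hy
    exact hle hx
  · rintro ⟨k, hk⟩
    have hx : x = t⁻¹ ^ k * (t ^ k * x) := by
      rw [← mul_assoc, tinv_pow_mul_t_pow M, one_mul]
    rw [hx]
    exact (B0 ⊔ B1).mul_mem
      ((B0 ⊔ B1).pow_mem ((le_sup_right : B1 ≤ B0 ⊔ B1) M.tinv_mem) k)
      ((le_sup_left : B0 ≤ B0 ⊔ B1) hk)

theorem mem_sup_iff1 (M : NodalTwoChartModel R F π t B0 B1 O1 O2) {x : F} :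
    x ∈ B0 ⊔ B1 ↔ ∃ k : ℕ, t⁻¹ ^ k * x ∈ B1 := by
  constructor
  · intro hx
    have hle : B0 ⊔ B1 ≤ Fermat.Agent.T1.ModelCoh30.awaySub t⁻¹ B1 M.tinv_mem := by
      apply sup_le
      · intro y hy
        exact M.ov1 y hy
      · intro y hy
        exact ⟨0, by simpa using hy⟩
    exact hle hx
  · rintro ⟨k, hk⟩
    have hx : x = t ^ k * (t⁻¹ ^ k * x) := by
      rw [← mul_assoc, mul_comm (t ^ k), tinv_pow_mul_t_pow M, one_mul]
    rw [hx]
    exact (B0 ⊔ B1).mul_mem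
      ((B0 ⊔ B1).pow_mem ((le_sup_left : B0 ≤ B0 ⊔ B1) M.t_mem) k)
      ((le_sup_right : B1 ≤ B0 ⊔ B1) hk)

theorem away0 (M : NodalTwoChartModel R F π t B0 B1 O1 O2) :
    @IsLocalization.Away ↥B0 _ ⟨t, M.t_mem⟩ ↥(B0 ⊔ B1) _ (ρ0 B0 B1).toRingHom.toAlgebra :=
  away_of_le le_sup_left M.t_mem M.t_ne ((le_sup_right : B1 ≤ B0 ⊔ B1) M.tinv_mem)
    (fun _ hx => (mem_sup_iff0 M).1 hx)

theorem away1 (M : NodalTwoChartModel R F π t B0 B1 O1 O2) :
    @IsLocalization.Away ↥B1 _ ⟨t⁻¹, M.tinv_mem⟩ ↥(B0 ⊔ B1) _ (ρ1 B0 B1).toRingHom.toAlgebra :=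
  away_of_le le_sup_right M.tinv_mem (inv_ne_zero M.t_ne)
    (by rw [inv_inv]; exact (le_sup_left : B0 ≤ B0 ⊔ B1) M.t_mem)
    (fun _ hx => (mem_sup_iff1 M).1 hx)

/-- The two-chart ring `(B0, B1, B0 ⊔ B1)` of the nodal model, coordinates `t`, `t⁻¹`. -/
noncomputable def nodalChart (M : NodalTwoChartModel R F π t B0 B1 O1 O2) :
    @TwoChart R ↥B0 ↥B1 ↥(B0 ⊔ B1) _ _ _ _ _ _ _ (algebra0 B0 B1) (algebra1 B0 B1)
      (isScalarTower0 B0 B1) (isScalarTower1 B0 B1) :=
  letI := algebra0 B0 B1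
  letI := algebra1 B0 B1
  haveI := isScalarTower0 B0 B1
  haveI := isScalarTower1 B0 B1
  { t := ⟨t, M.t_mem⟩
    s := ⟨t⁻¹, M.tinv_mem⟩
    away0 := away0 M
    away1 := away1 M
    ts := Subtype.ext (mul_inv_cancel₀ M.t_ne) }

/-- The component `i` of the special fibre: `O1` for `i = 0`, `O2` for `i = 1`. -/
def comp (O1 O2 : ValuationSubring F) (i : Fin 2) : ValuationSubring F :=
  if i = 0 then O1 else O2

@[simp] theorem comp_zero (O1 O2 : ValuationSubring F) : comp O1 O2 0 = O1 := rfl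
@[simp] theorem comp_one (O1 O2 : ValuationSubring F) : comp O1 O2 1 = O2 := rfl

theorem le_comp0 (M : NodalTwoChartModel R F π t B0 B1 O1 O2) (i : Fin 2) :
    ∀ x ∈ B0, x ∈ comp O1 O2 i := by
  fin_cases i
  · exact M.le_O1_0
  · exact M.le_O2_0

theorem le_comp1 (M : NodalTwoChartModel R F π t B0 B1 O1 O2) (i : Fin 2) :
    ∀ x ∈ B1, x ∈ comp O1 O2 i := by
  fin_cases i
  · exact M.le_O1_1
  · exact M.le_O2_1

theorem t_mem_comp (M : NodalTwoChartModel R F π t B0 B1 O1 O2) (i : Fin 2) :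
    t ∈ comp O1 O2 i := le_comp0 M i t M.t_mem

theorem tinv_mem_comp (M : NodalTwoChartModel R F π t B0 B1 O1 O2) (i : Fin 2) :
    t⁻¹ ∈ comp O1 O2 i := le_comp1 M i t⁻¹ M.tinv_mem

theorem le_comp01 (M : NodalTwoChartModel R F π t B0 B1 O1 O2) (i : Fin 2) :
    ∀ x ∈ B0 ⊔ B1, x ∈ comp O1 O2 i := by
  intro x hx
  obtain ⟨k, hk⟩ := (mem_sup_iff0 M).1 hx
  have hx' : x = t⁻¹ ^ k * (t ^ k * x) := by
    rw [← mul_assoc, tinv_pow_mul_t_pow M, one_mul]
  rw [hx']
  exact (comp O1 O2 i).mul_mem _ _ ((comp O1 O2 i).pow_mem (tinv_mem_comp M i) k)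
    (le_comp0 M i _ hk)

theorem pi_nonunit_comp (M : NodalTwoChartModel R F π t B0 B1 O1 O2) (i : Fin 2) :
    (algebraMap R F π)⁻¹ ∉ comp O1 O2 i := by
  fin_cases i
  · exact M.pi_nonunit1
  · exact M.pi_nonunit2

theorem unif_comp (M : NodalTwoChartModel R F π t B0 B1 O1 O2) (i : Fin 2) :
    ∀ x ∈ comp O1 O2 i, x⁻¹ ∉ comp O1 O2 i → ∃ c ∈ comp O1 O2 i, x = algebraMap R F π * c := by
  fin_cases i
  · exact M.unif1
  · exact M.unif2

/-- the saturation of the overlap chart. -/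
theorem sat01 (M : NodalTwoChartModel R F π t B0 B1 O1 O2) :
    ∀ b ∈ B0 ⊔ B1, ∀ c : F, c ∈ O1 → c ∈ O2 → b = algebraMap R F π * c → c ∈ B0 ⊔ B1 := by
  intro b hb c hc1 hc2 hbc
  obtain ⟨k, hk⟩ := (mem_sup_iff0 M).1 hb
  rw [mem_sup_iff0 M]
  refine ⟨k, M.sat0 _ hk (t ^ k * c) (O1.mul_mem _ _ (O1.pow_mem (M.le_O1_0 t M.t_mem) k) hc1)
    (O2.mul_mem _ _ (O2.pow_mem (M.le_O2_0 t M.t_mem) k) hc2) ?_⟩
  rw [hbc]
  ring

/-- **`NodalGood` for the nodal two-chart model**: components `O1`, `O2`; `P_j i = B_j ∩ π O_i`. -/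
noncomputable def nodalGood (M : NodalTwoChartModel R F π t B0 B1 O1 O2) :
    @NodalGood R ↥B0 ↥B1 ↥(B0 ⊔ B1) _ _ _ _ _ _ _ (algebra0 B0 B1) (algebra1 B0 B1)
      (isScalarTower0 B0 B1) (isScalarTower1 B0 B1) (nodalChart M) π (Fin 2) :=
  letI := algebra0 B0 B1
  letI := algebra1 B0 B1
  haveI := isScalarTower0 B0 B1
  haveI := isScalarTower1 B0 B1
  { reg0 := fun x hx => by
      have h : algebraMap R F π * (x : F) = 0 := congrArg (fun b : ↥B0 => (b : F)) hx
      exact Subtype.ext ((mul_eq_zero.1 h).resolve_left M.pi_ne)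
    reg1 := fun x hx => by
      have h : algebraMap R F π * (x : F) = 0 := congrArg (fun b : ↥B1 => (b : F)) hx
      exact Subtype.ext ((mul_eq_zero.1 h).resolve_left M.pi_ne)
    reg01 := fun x hx => by
      have h : algebraMap R F π * (x : F) = 0 := congrArg (fun b : ↥(B0 ⊔ B1) => (b : F)) hx
      exact Subtype.ext ((mul_eq_zero.1 h).resolve_left M.pi_ne)
    P0 := fun i => vertIdeal π B0 (comp O1 O2 i) (le_comp0 M i)
    P1 := fun i => vertIdeal π B1 (comp O1 O2 i) (le_comp1 M i)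
    Q := fun i => vertIdeal π (B0 ⊔ B1) (comp O1 O2 i) (le_comp01 M i)
    prime0 := fun i =>
      vertIdeal_isPrime (le_comp0 M i) M.pi_ne (pi_nonunit_comp M i) (unif_comp M i)
    prime1 := fun i =>
      vertIdeal_isPrime (le_comp1 M i) M.pi_ne (pi_nonunit_comp M i) (unif_comp M i)
    primeQ := fun i =>
      vertIdeal_isPrime (le_comp01 M i) M.pi_ne (pi_nonunit_comp M i) (unif_comp M i)
    comap0 := fun i => by
      ext x
      exact Iff.rfl
    comap1 := fun i => by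
      ext x
      exact Iff.rfl
    mem0 := fun i => algebraMap_mem_vertIdeal
    mem1 := fun i => algebraMap_mem_vertIdeal
    inf0 := fun x hx => by
      obtain ⟨c, hc1, h1⟩ := hx 0
      obtain ⟨d, hd2, h2⟩ := hx 1
      have hcd : c = d := mul_left_cancel₀ M.pi_ne (h1.symm.trans h2)
      subst hcd
      exact ⟨⟨c, M.sat0 x x.2 c hc1 hd2 h1⟩, Subtype.ext h1⟩
    inf1 := fun x hx => by
      obtain ⟨c, hc1, h1⟩ := hx 0
      obtain ⟨d, hd2, h2⟩ := hx 1
      have hcd : c = d := mul_left_cancel₀ M.pi_ne (h1.symm.trans h2)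
      subst hcd
      exact ⟨⟨c, M.sat1 x x.2 c hc1 hd2 h1⟩, Subtype.ext h1⟩ }

theorem mem_P0 (M : NodalTwoChartModel R F π t B0 B1 O1 O2) (i : Fin 2) (x : ↥B0) :
    letI := algebra0 B0 B1
    letI := algebra1 B0 B1
    haveI := isScalarTower0 B0 B1
    haveI := isScalarTower1 B0 B1
    x ∈ (nodalGood M).P0 i ↔ ∃ c ∈ comp O1 O2 i, (x : F) = algebraMap R F π * c := Iff.rfl

theorem mem_P1 (M : NodalTwoChartModel R F π t B0 B1 O1 O2) (i : Fin 2) (x : ↥B1) :
    letI := algebra0 B0 B1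
    letI := algebra1 B0 B1
    haveI := isScalarTower0 B0 B1
    haveI := isScalarTower1 B0 B1
    x ∈ (nodalGood M).P1 i ↔ ∃ c ∈ comp O1 O2 i, (x : F) = algebraMap R F π * c := Iff.rfl

theorem mem_Q (M : NodalTwoChartModel R F π t B0 B1 O1 O2) (i : Fin 2) (x : ↥(B0 ⊔ B1)) :
    letI := algebra0 B0 B1
    letI := algebra1 B0 B1
    haveI := isScalarTower0 B0 B1
    haveI := isScalarTower1 B0 B1
    x ∈ (nodalGood M).Q i ↔ ∃ c ∈ comp O1 O2 i, (x : F) = algebraMap R F π * c := Iff.rfl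

/-- the overlap version of `inf0`/`inf1`. -/
theorem inf01 (M : NodalTwoChartModel R F π t B0 B1 O1 O2) (x : ↥(B0 ⊔ B1))
    (hx : ∀ i : Fin 2, ∃ c ∈ comp O1 O2 i, (x : F) = algebraMap R F π * c) :
    ∃ y : ↥(B0 ⊔ B1), (x : F) = algebraMap R F π * (y : F) := by
  obtain ⟨c, hc1, h1⟩ := hx 0
  obtain ⟨d, hd2, h2⟩ := hx 1
  have hcd : c = d := mul_left_cancel₀ M.pi_ne (h1.symm.trans h2)
  subst hcd
  exact ⟨⟨c, sat01 M x x.2 c hc1 hd2 h1⟩, h1⟩

end Chart

/-! ### Transport along isomorphisms of two-chart rings -/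

section Transport

variable {A R0 R1 R01 R0' R1' R01' : Type u} [CommRing A]
  [CommRing R0] [CommRing R1] [CommRing R01] [Algebra A R0] [Algebra A R1] [Algebra A R01]
  [Algebra R0 R01] [Algebra R1 R01] [IsScalarTower A R0 R01] [IsScalarTower A R1 R01]
  [CommRing R0'] [CommRing R1'] [CommRing R01'] [Algebra A R0'] [Algebra A R1'] [Algebra A R01']
  [Algebra R0' R01'] [Algebra R1' R01'] [IsScalarTower A R0' R01'] [IsScalarTower A R1' R01']

/-- **Transport of `NodalGood`** along `A`-algebra isomorphisms of the three rings compatible with the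
restriction maps (`NodalGood` does not depend on the coordinates of the two-chart ring). -/
noncomputable def NodalGood.of_equiv (c : TwoChart A R0 R1 R01) (c' : TwoChart A R0' R1' R01')
    (e0 : R0 ≃ₐ[A] R0') (e1 : R1 ≃ₐ[A] R1') (e01 : R01 ≃ₐ[A] R01')
    (h0 : ∀ x : R0, e01 (algebraMap R0 R01 x) = algebraMap R0' R01' (e0 x))
    (h1 : ∀ x : R1, e01 (algebraMap R1 R01 x) = algebraMap R1' R01' (e1 x))
    {p : A} {ι : Type} (hg : NodalGood c' p ι) : NodalGood c p ι where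
  reg0 := fun x hx => by
    have h : algebraMap A R0' p * e0 x = 0 := by
      rw [← e0.commutes, ← map_mul, hx, map_zero]
    exact (map_eq_zero_iff e0 e0.injective).1 (hg.reg0 _ h)
  reg1 := fun x hx => by
    have h : algebraMap A R1' p * e1 x = 0 := by
      rw [← e1.commutes, ← map_mul, hx, map_zero]
    exact (map_eq_zero_iff e1 e1.injective).1 (hg.reg1 _ h)
  reg01 := fun x hx => by
    have h : algebraMap A R01' p * e01 x = 0 := by
      rw [← e01.commutes, ← map_mul, hx, map_zero]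
    exact (map_eq_zero_iff e01 e01.injective).1 (hg.reg01 _ h)
  P0 := fun i => (hg.P0 i).comap (e0 : R0 →+* R0')
  P1 := fun i => (hg.P1 i).comap (e1 : R1 →+* R1')
  Q := fun i => (hg.Q i).comap (e01 : R01 →+* R01')
  prime0 := fun i => haveI := hg.prime0 i; Ideal.comap_isPrime _ _
  prime1 := fun i => haveI := hg.prime1 i; Ideal.comap_isPrime _ _
  primeQ := fun i => haveI := hg.primeQ i; Ideal.comap_isPrime _ _
  comap0 := fun i => by
    ext x
    simp only [Ideal.mem_comap]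
    have : (e01 : R01 →+* R01') (algebraMap R0 R01 x) = algebraMap R0' R01' (e0 x) := h0 x
    rw [this, ← Ideal.mem_comap, hg.comap0 i]
    rfl
  comap1 := fun i => by
    ext x
    simp only [Ideal.mem_comap]
    have : (e01 : R01 →+* R01') (algebraMap R1 R01 x) = algebraMap R1' R01' (e1 x) := h1 x
    rw [this, ← Ideal.mem_comap, hg.comap1 i]
    rfl
  mem0 := fun i => by
    rw [Ideal.mem_comap]
    have : (e0 : R0 →+* R0') (algebraMap A R0 p) = algebraMap A R0' p := e0.commutes p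
    rw [this]
    exact hg.mem0 i
  mem1 := fun i => by
    rw [Ideal.mem_comap]
    have : (e1 : R1 →+* R1') (algebraMap A R1 p) = algebraMap A R1' p := e1.commutes p
    rw [this]
    exact hg.mem1 i
  inf0 := fun x hx => by
    obtain ⟨y, hy⟩ := hg.inf0 (e0 x) (fun i => hx i)
    refine ⟨e0.symm y, ?_⟩
    apply e0.injective
    rw [hy, map_mul, e0.commutes, e0.apply_symm_apply]
  inf1 := fun x hx => by
    obtain ⟨y, hy⟩ := hg.inf1 (e1 x) (fun i => hx i)
    refine ⟨e1.symm y, ?_⟩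
    apply e1.injective
    rw [hy, map_mul, e1.commutes, e1.apply_symm_apply]

end Transport

end Fermat.Agent.T1B.NodalFacts23
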