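/-
Programme T1B (S44), brick N-FACTS (helper23), part 2: `RedN3.NodalGood` for the BASE CHANGE
`c0.baseChange O` of a two-chart ring (the shape consumed by helper3's hub statements `Balanced`,
`ExtInjective00`, `HasRedL`).

* `nodalGood_of_equiv`  : `NodalGood (c0.baseChange O) π' (Fin 2)` from a nodal two-chart model `M'`
  over `O` and `O`-algebra isomorphisms `O ⊗[W] B_j ≃ₐ[O] ↥B_j'`, `O ⊗[W] B01 ≃ₐ[O] ↥(B0' ⊔ B1')`
  compatible with the restriction maps (to be supplied by the NODAL MODEL-BC brick);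
* `nodalGood_self`      : the case `W = O`: `NodalGood ((nodalChart M).baseChange R) π (Fin 2)`
  (trivial equivalences `R ⊗[R] B ≃ B`), enough for arguments that use ONE big field.
-/
import Mathlib
import Fermat.Agent.T1B.NodalFacts23.Good
import Fermat.Agent.Jac.BaseChange75.Rings

set_option autoImplicit false
set_option linter.unusedSectionVars false
set_option linter.style.haveILetI false

universe u

open TensorProduct

namespace Fermat.Agent.T1B.NodalFacts23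

open Fermat.Agent.ES.N34.NodalCore13 Fermat.Agent.Jac Fermat.Agent.T1B.RedN3
open Fermat.Agent.Jac.BaseChange75
open scoped Fermat.Agent.Jac.BaseChange75
open Fermat.Agent.T1.ModelCoh30 (ρ0 ρ1)
open Fermat.Agent.T1.Coh60 (algebra0 algebra1 isScalarTower0 isScalarTower1)

section General

variable {W O : Type u} [CommRing W] [CommRing O] [Algebra W O]
  {B0 B1 B01 : Type u} [CommRing B0] [CommRing B1] [CommRing B01]
  [Algebra W B0] [Algebra W B1] [Algebra W B01] [Algebra B0 B01] [Algebra B1 B01]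
  [IsScalarTower W B0 B01] [IsScalarTower W B1 B01]
  {F' : Type u} [Field F'] [Algebra O F']
  {π' : O} {t' : F'} {B0' B1' : Subalgebra O F'} {O1' O2' : ValuationSubring F'}

/-- **`NodalGood` for the base change of the hub** from the nodal model over `O` and chart
isomorphisms. -/
noncomputable def nodalGood_of_equiv (c0 : TwoChart W B0 B1 B01)
    (M' : NodalTwoChartModel O F' π' t' B0' B1' O1' O2')
    (e0 : (O ⊗[W] B0) ≃ₐ[O] ↥B0') (e1 : (O ⊗[W] B1) ≃ₐ[O] ↥B1')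
    (e01 : (O ⊗[W] B01) ≃ₐ[O] ↥(B0' ⊔ B1'))
    (h0 : ∀ x : O ⊗[W] B0, e01 (algebraMap (O ⊗[W] B0) (O ⊗[W] B01) x) = ρ0 B0' B1' (e0 x))
    (h1 : ∀ x : O ⊗[W] B1, e01 (algebraMap (O ⊗[W] B1) (O ⊗[W] B01) x) = ρ1 B0' B1' (e1 x)) :
    NodalGood (c0.baseChange O) π' (Fin 2) :=
  @NodalGood.of_equiv O (O ⊗[W] B0) (O ⊗[W] B1) (O ⊗[W] B01) ↥B0' ↥B1' ↥(B0' ⊔ B1')
    _ _ _ _ _ _ _ _ _ _ _ _ _ _ _ _ _ (algebra0 B0' B1') (algebra1 B0' B1')
    (isScalarTower0 B0' B1') (isScalarTower1 B0' B1')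
    (c0.baseChange O) (nodalChart M') e0 e1 e01 h0 h1 π' (Fin 2) (nodalGood M')

theorem mem_P0_of_equiv (c0 : TwoChart W B0 B1 B01)
    (M' : NodalTwoChartModel O F' π' t' B0' B1' O1' O2')
    (e0 : (O ⊗[W] B0) ≃ₐ[O] ↥B0') (e1 : (O ⊗[W] B1) ≃ₐ[O] ↥B1')
    (e01 : (O ⊗[W] B01) ≃ₐ[O] ↥(B0' ⊔ B1'))
    (h0 : ∀ x : O ⊗[W] B0, e01 (algebraMap (O ⊗[W] B0) (O ⊗[W] B01) x) = ρ0 B0' B1' (e0 x))
    (h1 : ∀ x : O ⊗[W] B1, e01 (algebraMap (O ⊗[W] B1) (O ⊗[W] B01) x) = ρ1 B0' B1' (e1 x))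
    (i : Fin 2) (x : O ⊗[W] B0) :
    x ∈ (nodalGood_of_equiv c0 M' e0 e1 e01 h0 h1).P0 i ↔
      ∃ c ∈ comp O1' O2' i, ((e0 x : ↥B0') : F') = algebraMap O F' π' * c := Iff.rfl

theorem mem_P1_of_equiv (c0 : TwoChart W B0 B1 B01)
    (M' : NodalTwoChartModel O F' π' t' B0' B1' O1' O2')
    (e0 : (O ⊗[W] B0) ≃ₐ[O] ↥B0') (e1 : (O ⊗[W] B1) ≃ₐ[O] ↥B1')
    (e01 : (O ⊗[W] B01) ≃ₐ[O] ↥(B0' ⊔ B1'))
    (h0 : ∀ x : O ⊗[W] B0, e01 (algebraMap (O ⊗[W] B0) (O ⊗[W] B01) x) = ρ0 B0' B1' (e0 x))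
    (h1 : ∀ x : O ⊗[W] B1, e01 (algebraMap (O ⊗[W] B1) (O ⊗[W] B01) x) = ρ1 B0' B1' (e1 x))
    (i : Fin 2) (x : O ⊗[W] B1) :
    x ∈ (nodalGood_of_equiv c0 M' e0 e1 e01 h0 h1).P1 i ↔
      ∃ c ∈ comp O1' O2' i, ((e1 x : ↥B1') : F') = algebraMap O F' π' * c := Iff.rfl

theorem mem_Q_of_equiv (c0 : TwoChart W B0 B1 B01)
    (M' : NodalTwoChartModel O F' π' t' B0' B1' O1' O2')
    (e0 : (O ⊗[W] B0) ≃ₐ[O] ↥B0') (e1 : (O ⊗[W] B1) ≃ₐ[O] ↥B1')
    (e01 : (O ⊗[W] B01) ≃ₐ[O] ↥(B0' ⊔ B1'))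
    (h0 : ∀ x : O ⊗[W] B0, e01 (algebraMap (O ⊗[W] B0) (O ⊗[W] B01) x) = ρ0 B0' B1' (e0 x))
    (h1 : ∀ x : O ⊗[W] B1, e01 (algebraMap (O ⊗[W] B1) (O ⊗[W] B01) x) = ρ1 B0' B1' (e1 x))
    (i : Fin 2) (x : O ⊗[W] B01) :
    x ∈ (nodalGood_of_equiv c0 M' e0 e1 e01 h0 h1).Q i ↔
      ∃ c ∈ comp O1' O2' i, ((e01 x : ↥(B0' ⊔ B1')) : F') = algebraMap O F' π' * c := Iff.rfl

end General

section Self

variable {R F : Type u} [CommRing R] [Field F] [Algebra R F]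
variable {π : R} {t : F} {B0 B1 : Subalgebra R F} {O1 O2 : ValuationSubring F}

attribute [local instance] algebra0 algebra1 isScalarTower0 isScalarTower1

theorem lid_compat0 (x : R ⊗[R] ↥B0) :
    Algebra.TensorProduct.lid R ↥(B0 ⊔ B1)
        (algebraMap (R ⊗[R] ↥B0) (R ⊗[R] ↥(B0 ⊔ B1)) x) =
      ρ0 B0 B1 (Algebra.TensorProduct.lid R ↥B0 x) := by
  induction x using TensorProduct.induction_on with
  | zero => simp
  | add x y hx hy => rw [map_add, map_add, map_add, map_add, hx, hy]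
  | tmul a b =>
    rw [algebraMap_right_tmul, Algebra.TensorProduct.lid_tmul, Algebra.TensorProduct.lid_tmul,
      map_smul]
    rfl

theorem lid_compat1 (x : R ⊗[R] ↥B1) :
    Algebra.TensorProduct.lid R ↥(B0 ⊔ B1)
        (algebraMap (R ⊗[R] ↥B1) (R ⊗[R] ↥(B0 ⊔ B1)) x) =
      ρ1 B0 B1 (Algebra.TensorProduct.lid R ↥B1 x) := by
  induction x using TensorProduct.induction_on with
  | zero => simp
  | add x y hx hy => rw [map_add, map_add, map_add, map_add, hx, hy]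
  | tmul a b =>
    rw [algebraMap_right_tmul, Algebra.TensorProduct.lid_tmul, Algebra.TensorProduct.lid_tmul,
      map_smul]
    rfl

/-- **The case `W = O`**: `NodalGood` for the (trivial) base change of the nodal chart to its own
base ring (instances `Coh60.algebra0/algebra1` on `↥(B0 ⊔ B1)`). -/
noncomputable def nodalGood_self (M : NodalTwoChartModel R F π t B0 B1 O1 O2) :
    NodalGood ((nodalChart M).baseChange R) π (Fin 2) :=
  nodalGood_of_equiv (W := R) (O := R) (B0 := ↥B0) (B1 := ↥B1) (B01 := ↥(B0 ⊔ B1))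
    (F' := F) (π' := π) (t' := t) (B0' := B0) (B1' := B1) (O1' := O1) (O2' := O2)
    (nodalChart M) M (Algebra.TensorProduct.lid R ↥B0)
    (Algebra.TensorProduct.lid R ↥B1) (Algebra.TensorProduct.lid R ↥(B0 ⊔ B1))
    lid_compat0 lid_compat1

end Self

end Fermat.Agent.T1B.NodalFacts23
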